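/-
S13 package T-W2 (helper18): the invariant derivation `D` of the coordinate ring of a Weierstrass
curve: `D X = 2Y + a₁X + a₃`, `D Y = 3X² + 2a₂X + a₄ - a₁Y`.
Constructed through the ring of dual numbers `TrivSqZeroExt R R`.
-/
import Mathlib

set_option autoImplicit false

namespace Fermat.Agent.S13.TorsW18

open Polynomial WeierstrassCurve WeierstrassCurve.Affine
open scoped Polynomial.Bivariate

noncomputable section

variable {K : Type*} [Field K] (W : Affine K)

/-- the class of `X` in the coordinate ring -/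
def xR : W.CoordinateRing := CoordinateRing.mk W (C X)

/-- the class of `Y` in the coordinate ring -/
def yR : W.CoordinateRing := CoordinateRing.mk W Y

/-- `D X = ∂W/∂Y = 2Y + a₁X + a₃` -/
def dX : W.CoordinateRing := CoordinateRing.mk W W.polynomialY

/-- `D Y = -∂W/∂X = 3X² + 2a₂X + a₄ - a₁Y` -/
def dY : W.CoordinateRing := - CoordinateRing.mk W W.polynomialX

abbrev Dual := TrivSqZeroExt W.CoordinateRing W.CoordinateRing

/-- the inner ring hom `K[X] → Dual`, `X ↦ X + ε·dX`. -/
def innerHom : K[X] →+* Dual W :=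
  Polynomial.eval₂RingHom ((algebraMap W.CoordinateRing (Dual W)).comp (algebraMap K W.CoordinateRing))
    (TrivSqZeroExt.inl (xR W) + TrivSqZeroExt.inr (dX W))

/-- the point `Y + ε·dY` of the dual numbers. -/
def yDual : Dual W := TrivSqZeroExt.inl (yR W) + TrivSqZeroExt.inr (dY W)

lemma fst_innerHom (p : K[X]) : (innerHom W p).fst = CoordinateRing.mk W (C p) := by
  induction p using Polynomial.induction_on' with
  | add p q hp hq => simp [map_add, hp, hq]
  | monomial n a =>
    simp only [innerHom, coe_eval₂RingHom, eval₂_monomial, RingHom.coe_comp, Function.comp_apply,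
      TrivSqZeroExt.fst_mul, TrivSqZeroExt.fst_pow, TrivSqZeroExt.fst_add, TrivSqZeroExt.fst_inl,
      TrivSqZeroExt.fst_inr, add_zero, TrivSqZeroExt.algebraMap_eq_inl]
    rw [xR, ← map_pow, ← C_pow, ← C_mul_X_pow_eq_monomial, C_mul, map_mul]
    rfl


lemma innerHom_C (a : K) : innerHom W (C a) = algebraMap W.CoordinateRing (Dual W) (algebraMap K _ a) := by
  simp [innerHom]

lemma innerHom_X : innerHom W X = TrivSqZeroExt.inl (xR W) + TrivSqZeroExt.inr (dX W) := by
  simp [innerHom]

lemma mk_polynomialY : CoordinateRing.mk W W.polynomialY = 2 * yR W + (algebraMap K _ W.a₁ * xR W + algebraMap K _ W.a₃) := by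
  simp only [polynomialY, xR, yR, map_add, map_mul]
  rfl

lemma mk_polynomialX : CoordinateRing.mk W W.polynomialX = algebraMap K _ W.a₁ * yR W - (3 * xR W ^ 2 + 2 * algebraMap K _ W.a₂ * xR W + algebraMap K _ W.a₄) := by
  simp only [polynomialX, xR, yR, map_add, map_mul, map_sub, map_pow]
  rfl

lemma mk_polynomial_eq : (yR W) ^ 2 + (algebraMap K _ W.a₁ * xR W + algebraMap K _ W.a₃) * yR W - (xR W ^ 3 + algebraMap K _ W.a₂ * xR W ^ 2 + algebraMap K _ W.a₄ * xR W + algebraMap K _ W.a₆) = 0 := by
  have : CoordinateRing.mk W W.polynomial = 0 := AdjoinRoot.mk_self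
  rw [← this]
  simp only [polynomial, xR, yR, map_add, map_mul, map_sub, map_pow]
  rfl


lemma eval₂_polynomial_dual : W.polynomial.eval₂ (innerHom W) (yDual W) = 0 := by
  have h0 := mk_polynomial_eq W
  simp only [polynomial, eval₂_add, eval₂_sub, eval₂_mul, eval₂_pow, eval₂_C, eval₂_X, map_add,
    map_mul, map_pow, innerHom_C, innerHom_X, yDual]
  ext
  · simp only [TrivSqZeroExt.fst_add, TrivSqZeroExt.fst_sub, TrivSqZeroExt.fst_mul,
      TrivSqZeroExt.fst_pow, TrivSqZeroExt.fst_inl, TrivSqZeroExt.fst_inr,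
      TrivSqZeroExt.algebraMap_eq_inl, add_zero, TrivSqZeroExt.fst_zero]
    linear_combination h0
  · simp only [TrivSqZeroExt.snd_add, TrivSqZeroExt.snd_sub, TrivSqZeroExt.snd_mul,
      TrivSqZeroExt.snd_pow, TrivSqZeroExt.snd_inl, TrivSqZeroExt.snd_inr, TrivSqZeroExt.fst_add,
      TrivSqZeroExt.fst_mul, TrivSqZeroExt.fst_pow, TrivSqZeroExt.fst_inl, TrivSqZeroExt.fst_inr,
      TrivSqZeroExt.algebraMap_eq_inl, add_zero, TrivSqZeroExt.snd_zero, zero_add, smul_eq_mul,
      dX, dY, mk_polynomialX, mk_polynomialY]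
    simp only [MulOpposite.smul_eq_mul_unop, MulOpposite.unop_op, Nat.pred_eq_sub_one, nsmul_eq_mul]
    norm_num
    ring


/-- the ring hom `R → R[ε]`, `X ↦ X + ε dX`, `Y ↦ Y + ε dY`. -/
def dualHom : W.CoordinateRing →+* Dual W :=
  AdjoinRoot.lift (innerHom W) (yDual W) (eval₂_polynomial_dual W)

lemma dualHom_mk (p : K[X][Y]) : dualHom W (CoordinateRing.mk W p) = p.eval₂ (innerHom W) (yDual W) :=
  AdjoinRoot.lift_mk _ _

lemma fst_dualHom (f : W.CoordinateRing) : (dualHom W f).fst = f := by
  obtain ⟨p, rfl⟩ := AdjoinRoot.mk_surjective f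
  change (dualHom W (CoordinateRing.mk W p)).fst = CoordinateRing.mk W p
  rw [dualHom_mk]
  induction p using Polynomial.induction_on' with
  | add p q hp hq => simp [eval₂_add, hp, hq]
  | monomial n a =>
    simp only [eval₂_monomial, TrivSqZeroExt.fst_mul, TrivSqZeroExt.fst_pow, fst_innerHom, yDual,
      TrivSqZeroExt.fst_add, TrivSqZeroExt.fst_inl, TrivSqZeroExt.fst_inr, add_zero]
    rw [yR, ← map_pow, ← map_mul, C_mul_X_pow_eq_monomial]

lemma dualHom_algebraMap (a : K) :
    dualHom W (algebraMap K W.CoordinateRing a) = TrivSqZeroExt.inl (algebraMap K W.CoordinateRing a) := by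
  change dualHom W (CoordinateRing.mk W (C (C a))) = _
  rw [dualHom_mk, eval₂_C, innerHom_C, TrivSqZeroExt.algebraMap_eq_inl]

/-- the underlying `K`-linear map of the invariant derivation. -/
def dLin : W.CoordinateRing →ₗ[K] W.CoordinateRing where
  toFun f := (dualHom W f).snd
  map_add' f g := by simp
  map_smul' a f := by
    simp only [Algebra.smul_def, map_mul, dualHom_algebraMap, TrivSqZeroExt.snd_mul,
      TrivSqZeroExt.fst_inl, TrivSqZeroExt.snd_inl, RingHom.id_apply, smul_eq_mul,
      MulOpposite.smul_eq_mul_unop, MulOpposite.unop_op]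
    simp

lemma dLin_apply (f : W.CoordinateRing) : dLin W f = (dualHom W f).snd := rfl

/-- the invariant derivation. -/
def D : Derivation K W.CoordinateRing W.CoordinateRing :=
  Derivation.mk' (dLin W) (fun f g => by
    simp only [dLin_apply, map_mul, TrivSqZeroExt.snd_mul, fst_dualHom, smul_eq_mul,
      MulOpposite.smul_eq_mul_unop, MulOpposite.unop_op]
    ring)

lemma D_apply (f : W.CoordinateRing) : D W f = (dualHom W f).snd := rfl

@[simp] lemma D_xR : D W (xR W) = dX W := by
  rw [D_apply, xR, dualHom_mk, eval₂_C, innerHom_X]; simp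

@[simp] lemma D_yR : D W (yR W) = dY W := by
  rw [D_apply, yR, dualHom_mk, eval₂_X, yDual]; simp

end

end Fermat.Agent.S13.TorsW18
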