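/-
S13 package T-W2 (helper18): Taylor criterion at a nonsingular point `P = (x₀,y₀)`:
`f ∈ I_P^(k+1) ↔ f ∈ I_P^k ∧ ev_P (D^k f) = 0` (characteristic zero), where `I_P = XYIdeal`,
and the consequence `R ⧸ I_P^n ≃ K^n`.
-/
import Fermat.Agent.S13.TorsW18.Deriv

set_option autoImplicit false

namespace Fermat.Agent.S13.TorsW18

open Polynomial WeierstrassCurve WeierstrassCurve.Affine
open scoped Polynomial.Bivariate

noncomputable section

variable {K : Type*} [Field K] (W : Affine K) {x₀ y₀ : K}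

/-- evaluation at the point `(x₀,y₀)`. -/
def evP (h : W.Equation x₀ y₀) : W.CoordinateRing →+* K := AdjoinRoot.evalEval h

variable {W}

lemma evP_mk (h : W.Equation x₀ y₀) (p : K[X][Y]) :
    evP W h (CoordinateRing.mk W p) = p.evalEval x₀ y₀ := AdjoinRoot.evalEval_mk h p

@[simp] lemma evP_algebraMap (h : W.Equation x₀ y₀) (a : K) :
    evP W h (algebraMap K W.CoordinateRing a) = a := by
  change evP W h (CoordinateRing.mk W (C (C a))) = a
  rw [evP_mk]; simp [evalEval]

@[simp] lemma evP_xR (h : W.Equation x₀ y₀) : evP W h (xR W) = x₀ := by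
  rw [xR, evP_mk]; simp [evalEval]

@[simp] lemma evP_yR (h : W.Equation x₀ y₀) : evP W h (yR W) = y₀ := by
  rw [yR, evP_mk]; simp [evalEval]

lemma evP_dX (h : W.Equation x₀ y₀) : evP W h (dX W) = W.polynomialY.evalEval x₀ y₀ := by
  rw [dX, evP_mk]

lemma evP_dY (h : W.Equation x₀ y₀) : evP W h (dY W) = - W.polynomialX.evalEval x₀ y₀ := by
  rw [dY, map_neg, evP_mk]

variable (W x₀ y₀) in
/-- the maximal ideal of the point. -/
def IP : Ideal W.CoordinateRing := CoordinateRing.XYIdeal W x₀ (C y₀)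

/-- `u = X - x₀`. -/
def uP (W : Affine K) (x₀ : K) : W.CoordinateRing := CoordinateRing.XClass W x₀

/-- `v = Y - y₀`. -/
def vP (W : Affine K) (y₀ : K) : W.CoordinateRing := CoordinateRing.YClass W (C y₀)

lemma uP_eq : uP W x₀ = xR W - algebraMap K _ x₀ := by
  simp only [uP, CoordinateRing.XClass, xR, map_sub]; rfl

lemma vP_eq : vP W y₀ = yR W - algebraMap K _ y₀ := by
  simp only [vP, CoordinateRing.YClass, yR, map_sub]; rfl

lemma IP_eq : IP W x₀ y₀ = Ideal.span {uP W x₀, vP W y₀} := rfl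

lemma mem_IP_iff (h : W.Equation x₀ y₀) (f : W.CoordinateRing) :
    f ∈ IP W x₀ y₀ ↔ evP W h f = 0 := by
  constructor
  · intro hf
    rw [IP_eq, Ideal.mem_span_pair] at hf
    obtain ⟨a, b, rfl⟩ := hf
    simp [uP_eq, vP_eq]
  · intro hf
    obtain ⟨p, rfl⟩ := AdjoinRoot.mk_surjective f
    change evP W h (CoordinateRing.mk W p) = 0 at hf
    rw [evP_mk] at hf
    have hp : p ∈ Ideal.span {C (X - C x₀), (Y : K[X][Y]) - C (C y₀)} :=
      mem_span_C_X_sub_C_X_sub_C_iff_eval_eval_eq_zero.mpr (by simpa [evalEval] using hf)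
    have := Ideal.mem_map_of_mem (CoordinateRing.mk W) hp
    rw [Ideal.map_span, Set.image_pair] at this
    exact this

lemma uP_mem (h : W.Equation x₀ y₀) : uP W x₀ ∈ IP W x₀ y₀ := by
  rw [mem_IP_iff h, uP_eq]; simp

lemma vP_mem (h : W.Equation x₀ y₀) : vP W y₀ ∈ IP W x₀ y₀ := by
  rw [mem_IP_iff h, vP_eq]; simp


/-- `D` lowers the `I_P`-adic order by at most one. -/
lemma D_mem_pow (I : Ideal W.CoordinateRing) (k : ℕ) {f : W.CoordinateRing} (hf : f ∈ I ^ (k + 1)) :
    D W f ∈ I ^ k := by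
  induction k generalizing f with
  | zero => simp
  | succ k ih =>
    rw [pow_succ] at hf
    refine Submodule.mul_induction_on hf ?_ ?_
    · intro a ha b hb
      rw [Derivation.leibniz, smul_eq_mul, smul_eq_mul]
      refine Ideal.add_mem _ ?_ ?_
      · -- a ∈ I^(k+1), D b arbitrary: a * D b ∈ I^(k+1)
        exact Ideal.mul_mem_right _ _ ha
      · -- b ∈ I, D a ∈ I^k
        have := ih ha
        rw [pow_succ]
        exact Ideal.mul_mem_mul this hb |> fun h => by simpa [mul_comm] using h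
    · intro a b ha hb
      rw [map_add]
      exact Ideal.add_mem _ ha hb

lemma D_iterate_mem_pow (I : Ideal W.CoordinateRing) (k j : ℕ) {f : W.CoordinateRing}
    (hf : f ∈ I ^ (k + j)) : (D W)^[j] f ∈ I ^ k := by
  induction j generalizing f with
  | zero => simpa using hf
  | succ j ih =>
    rw [Function.iterate_succ_apply]
    apply ih
    have : f ∈ I ^ ((k + j) + 1) := by rwa [add_assoc]
    exact D_mem_pow I (k + j) this


lemma iterate_add' (k : ℕ) (f g : W.CoordinateRing) :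
    (D W)^[k] (f + g) = (D W)^[k] f + (D W)^[k] g := by
  induction k generalizing f g with
  | zero => rfl
  | succ k ih => rw [Function.iterate_succ_apply, Function.iterate_succ_apply,
      Function.iterate_succ_apply, map_add, ih]

/-- `D^k (a b) ≡ a D^k b mod I` for `b ∈ I^k`. -/
lemma D_iterate_mul_sub_mem (I : Ideal W.CoordinateRing) (k : ℕ) (a : W.CoordinateRing)
    {b : W.CoordinateRing} (hb : b ∈ I ^ k) :
    (D W)^[k] (a * b) - a * (D W)^[k] b ∈ I := by
  induction k generalizing a b with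
  | zero => simp
  | succ k ih =>
    rw [Function.iterate_succ_apply, Function.iterate_succ_apply, Derivation.leibniz, smul_eq_mul,
      smul_eq_mul, iterate_add']
    have h1 := ih a (D_mem_pow I k hb)
    have h2 : (D W)^[k] (b * D W a) ∈ I := by
      have hmem : b * D W a ∈ I ^ (1 + k) := by
        rw [add_comm]; exact Ideal.mul_mem_right _ _ hb
      simpa using D_iterate_mem_pow I 1 k hmem
    have : (D W)^[k] (a * D W b) + (D W)^[k] (b * D W a) - a * (D W)^[k] (D W b) =
        ((D W)^[k] (a * D W b) - a * (D W)^[k] (D W b)) + (D W)^[k] (b * D W a) := by ring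
    rw [this]
    exact Ideal.add_mem _ h1 h2

/-- `D^k (t^k) ≡ k! (D t)^k mod I` for `t ∈ I`. -/
lemma D_iterate_pow_sub_mem (I : Ideal W.CoordinateRing) (k : ℕ) {t : W.CoordinateRing}
    (ht : t ∈ I) : (D W)^[k] (t ^ k) - (k.factorial : W.CoordinateRing) * (D W t) ^ k ∈ I := by
  induction k with
  | zero => simp
  | succ k ih =>
    rw [Function.iterate_succ_apply, Derivation.leibniz_pow, Nat.add_sub_cancel, smul_eq_mul,
      nsmul_eq_mul]
    have h1 := D_iterate_mul_sub_mem I k (((k + 1 : ℕ) : W.CoordinateRing) * D W t)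
      (Ideal.pow_mem_pow ht k)
    have e1 : ((k + 1 : ℕ) : W.CoordinateRing) * (t ^ k * D W t) =
        ((k + 1 : ℕ) : W.CoordinateRing) * D W t * t ^ k := by ring
    rw [e1]
    have h2 : ((k + 1 : ℕ) : W.CoordinateRing) * D W t *
        ((D W)^[k] (t ^ k) - (k.factorial : W.CoordinateRing) * (D W t) ^ k) ∈ I :=
      Ideal.mul_mem_left _ _ ih
    have : (D W)^[k] (((k + 1 : ℕ) : W.CoordinateRing) * D W t * t ^ k) -
        ((k + 1).factorial : W.CoordinateRing) * D W t ^ (k + 1) =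
        ((D W)^[k] (((k + 1 : ℕ) : W.CoordinateRing) * D W t * t ^ k) -
          ((k + 1 : ℕ) : W.CoordinateRing) * D W t * (D W)^[k] (t ^ k)) +
        ((k + 1 : ℕ) : W.CoordinateRing) * D W t *
          ((D W)^[k] (t ^ k) - (k.factorial : W.CoordinateRing) * (D W t) ^ k) := by
      rw [Nat.factorial_succ]; push_cast; ring
    rw [this]
    exact Ideal.add_mem _ h1 h2


/-- abstract local parameter at a point: `I = ker ev`, `t ∈ I` generates `I` modulo `I²`,
and `D t` does not vanish at the point. -/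
structure LocalParam (W : Affine K) (I : Ideal W.CoordinateRing) (ev : W.CoordinateRing →+* K)
    (t : W.CoordinateRing) : Prop where
  ker : ∀ f, f ∈ I ↔ ev f = 0
  ev_alg : ∀ a : K, ev (algebraMap K W.CoordinateRing a) = a
  t_mem : t ∈ I
  gen : I ≤ Ideal.span {t} ⊔ I ^ 2
  dt : ev (D W t) ≠ 0

namespace LocalParam

variable {I : Ideal W.CoordinateRing} {ev : W.CoordinateRing →+* K} {t : W.CoordinateRing}

lemma pow_le (H : LocalParam W I ev t) (k : ℕ) : I ^ k ≤ Ideal.span {t ^ k} ⊔ I ^ (k + 1) := by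
  induction k with
  | zero =>
    simp
  | succ k ih =>
    calc I ^ (k + 1) = I ^ k * I := pow_succ _ _
      _ ≤ (Ideal.span {t ^ k} ⊔ I ^ (k + 1)) * (Ideal.span {t} ⊔ I ^ 2) := Ideal.mul_mono ih H.gen
      _ ≤ Ideal.span {t ^ (k + 1)} ⊔ I ^ (k + 1 + 1) := by
        rw [Ideal.sup_mul, Ideal.mul_sup, Ideal.mul_sup, Ideal.span_singleton_mul_span_singleton,
          ← pow_succ]
        have ht : Ideal.span {t} ≤ I := (Ideal.span_singleton_le_iff_mem _).mpr H.t_mem
        have htk : Ideal.span {t ^ k} ≤ I ^ k :=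
          (Ideal.span_singleton_le_iff_mem _).mpr (Ideal.pow_mem_pow H.t_mem k)
        refine sup_le (sup_le le_sup_left ?_) (sup_le ?_ ?_)
        · refine le_trans (Ideal.mul_mono htk le_rfl) (le_trans ?_ le_sup_right)
          rw [← pow_add]
        · refine le_trans (Ideal.mul_mono le_rfl ht) (le_trans ?_ le_sup_right)
          rw [← pow_succ]
        · refine le_trans ?_ le_sup_right
          rw [← pow_add]
          exact Ideal.pow_le_pow_right (by omega)

lemma ev_D_iterate_pow (H : LocalParam W I ev t) (k : ℕ) :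
    ev ((D W)^[k] (t ^ k)) = (k.factorial : K) * ev (D W t) ^ k := by
  have := D_iterate_pow_sub_mem I k H.t_mem
  rw [H.ker, map_sub, sub_eq_zero] at this
  rw [this, map_mul, map_pow, map_natCast]

/-- Taylor criterion. -/
lemma mem_pow_succ [CharZero K] (H : LocalParam W I ev t) (k : ℕ) {f : W.CoordinateRing}
    (hf : f ∈ I ^ k) (h0 : ev ((D W)^[k] f) = 0) : f ∈ I ^ (k + 1) := by
  have h1 := H.pow_le k hf
  rw [Submodule.mem_sup] at h1
  obtain ⟨a, ha, g, hg, rfl⟩ := h1
  rw [Ideal.mem_span_singleton'] at ha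
  obtain ⟨c, rfl⟩ := ha
  refine Ideal.add_mem _ ?_ hg
  have hg0 : ev ((D W)^[k] g) = 0 := by
    rw [← H.ker]
    have : g ∈ I ^ (1 + k) := by rwa [add_comm]
    simpa using D_iterate_mem_pow I 1 k this
  have hc : ev ((D W)^[k] (c * t ^ k)) = ev c * ev ((D W)^[k] (t ^ k)) := by
    have := D_iterate_mul_sub_mem I k c (Ideal.pow_mem_pow H.t_mem k)
    rw [H.ker, map_sub, sub_eq_zero] at this
    rw [this, map_mul]
  rw [iterate_add', map_add, hg0, add_zero, hc, H.ev_D_iterate_pow] at h0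
  have hne : (k.factorial : K) * ev (D W t) ^ k ≠ 0 :=
    mul_ne_zero (Nat.cast_ne_zero.mpr (Nat.factorial_ne_zero k)) (pow_ne_zero _ H.dt)
  have hc0 : ev c = 0 := by
    rcases mul_eq_zero.mp h0 with h | h
    · exact h
    · exact absurd h hne
  rw [← H.ker] at hc0
  rw [pow_succ, mul_comm c]
  exact Ideal.mul_mem_mul (Ideal.pow_mem_pow H.t_mem k) hc0


lemma mem_pow_iff [CharZero K] (H : LocalParam W I ev t) (n : ℕ) (f : W.CoordinateRing) :
    f ∈ I ^ n ↔ ∀ j < n, ev ((D W)^[j] f) = 0 := by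
  constructor
  · intro hf j hj
    rw [← H.ker]
    have : f ∈ I ^ (1 + j) := Ideal.pow_le_pow_right (by omega) hf
    simpa using D_iterate_mem_pow I 1 j this
  · intro h
    induction n with
    | zero => simp
    | succ n ih =>
      exact H.mem_pow_succ n (ih fun j hj => h j (by omega)) (h n (by omega))

lemma iterate_smul' (k : ℕ) (a : K) (f : W.CoordinateRing) :
    (D W)^[k] (a • f) = a • (D W)^[k] f := by
  induction k generalizing f with
  | zero => rfl
  | succ k ih => rw [Function.iterate_succ_apply, Function.iterate_succ_apply, Derivation.map_smul, ih]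

lemma ev_smul (H : LocalParam W I ev t) (a : K) (f : W.CoordinateRing) : ev (a • f) = a * ev f := by
  rw [Algebra.smul_def, map_mul, H.ev_alg]

/-- the Taylor map `f ↦ (ev (D^j f))_{j<n}`. -/
def taylor (H : LocalParam W I ev t) (n : ℕ) : W.CoordinateRing →ₗ[K] (Fin n → K) where
  toFun f j := ev ((D W)^[(j : ℕ)] f)
  map_add' f g := by ext j; simp only [iterate_add', map_add, Pi.add_apply]
  map_smul' a f := by ext j; simp only [iterate_smul', H.ev_smul, Pi.smul_apply, smul_eq_mul, RingHom.id_apply]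

@[simp] lemma taylor_apply (H : LocalParam W I ev t) (n : ℕ) (f : W.CoordinateRing) (j : Fin n) :
    H.taylor n f j = ev ((D W)^[(j : ℕ)] f) := rfl

lemma ker_taylor [CharZero K] (H : LocalParam W I ev t) (n : ℕ) :
    LinearMap.ker (H.taylor n) = (I ^ n).restrictScalars K := by
  ext f
  rw [LinearMap.mem_ker, Submodule.restrictScalars_mem, H.mem_pow_iff]
  constructor
  · intro h j hj
    simpa using congrFun h ⟨j, hj⟩
  · intro h
    ext j
    simpa using h j j.2

lemma taylor_surjective [CharZero K] (H : LocalParam W I ev t) (n : ℕ) :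
    Function.Surjective (H.taylor n) := by
  induction n with
  | zero => intro w; exact ⟨0, by ext j; exact j.elim0⟩
  | succ n ih =>
    intro w
    obtain ⟨f, hf⟩ := ih (fun j => w j.castSucc)
    have hne : (n.factorial : K) * ev (D W t) ^ n ≠ 0 :=
      mul_ne_zero (Nat.cast_ne_zero.mpr (Nat.factorial_ne_zero n)) (pow_ne_zero _ H.dt)
    set c : K := (w (Fin.last n) - ev ((D W)^[n] f)) / ((n.factorial : K) * ev (D W t) ^ n)
      with hc
    refine ⟨f + c • t ^ n, ?_⟩
    ext j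
    refine Fin.lastCases ?_ (fun i => ?_) j
    · simp only [taylor_apply, Fin.val_last, iterate_add', iterate_smul', map_add, H.ev_smul,
        H.ev_D_iterate_pow]
      rw [hc, div_mul_cancel₀ _ hne]
      ring
    · have h1 : ev ((D W)^[(i : ℕ)] (t ^ n)) = 0 := by
        have := (H.mem_pow_iff n (t ^ n)).mp (Ideal.pow_mem_pow H.t_mem n) i i.2
        exact this
      have h2 := congrFun hf i
      simp only [taylor_apply] at h2
      simp only [taylor_apply, Fin.val_castSucc, iterate_add', iterate_smul', map_add, H.ev_smul,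
        h1, mul_zero, add_zero, h2]


/-- `R ⧸ I^n ≃ K^n`. -/
def quotPowEquiv [CharZero K] (H : LocalParam W I ev t) (n : ℕ) :
    (W.CoordinateRing ⧸ I ^ n) ≃ₗ[K] (Fin n → K) :=
  (Submodule.Quotient.restrictScalarsEquiv K (I ^ n)).symm.trans <|
    (Submodule.quotEquivOfEq _ _ (H.ker_taylor n).symm).trans <|
      (H.taylor n).quotKerEquivOfSurjective (H.taylor_surjective n)

lemma finrank_quot_pow [CharZero K] (H : LocalParam W I ev t) (n : ℕ) :
    Module.finrank K (W.CoordinateRing ⧸ I ^ n) = n := by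
  rw [(H.quotPowEquiv n).finrank_eq]
  simp

end LocalParam


/-- second order Taylor expansion of the Weierstrass equation at `(x₀,y₀)`. -/
lemma taylor_two (h : W.Equation x₀ y₀) :
    algebraMap K W.CoordinateRing (W.polynomialY.evalEval x₀ y₀) * vP W y₀ +
      algebraMap K W.CoordinateRing (W.polynomialX.evalEval x₀ y₀) * uP W x₀ +
      (vP W y₀ ^ 2 + algebraMap K _ W.a₁ * uP W x₀ * vP W y₀ -
        algebraMap K _ (3 * x₀ + W.a₂) * uP W x₀ ^ 2 - uP W x₀ ^ 3) = 0 := by
  have h1 := mk_polynomial_eq W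
  have h2 : algebraMap K W.CoordinateRing (y₀ ^ 2 + W.a₁ * x₀ * y₀ + W.a₃ * y₀ -
      (x₀ ^ 3 + W.a₂ * x₀ ^ 2 + W.a₄ * x₀ + W.a₆)) = 0 := by
    rw [(W.equation_iff' x₀ y₀).mp h, map_zero]
  rw [evalEval_polynomialY, evalEval_polynomialX, uP_eq, vP_eq]
  simp only [map_add, map_sub, map_mul, map_pow, map_ofNat] at h2 ⊢
  linear_combination h1 - h2

lemma le_span_sup_sq_of_eq {R : Type*} [CommRing R] {I : Ideal R} {u v Q c d : R}
    (hI : I = Ideal.span {u, v}) (_hv : v ∈ I) (hQ : Q ∈ I ^ 2) (hu : u = c * v + d * Q) :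
    I ≤ Ideal.span {v} ⊔ I ^ 2 := by
  intro f hf
  rw [hI, Ideal.mem_span_pair] at hf
  obtain ⟨a, b, rfl⟩ := hf
  have e : a * u + b * v = (a * c + b) * v + a * d * Q := by rw [hu]; ring
  rw [e]
  exact Submodule.add_mem_sup (Ideal.mem_span_singleton'.mpr ⟨_, rfl⟩) (Ideal.mul_mem_left _ _ hQ)

lemma le_span_sup_sq_of_eq' {R : Type*} [CommRing R] {I : Ideal R} {u v Q c d : R}
    (hI : I = Ideal.span {u, v}) (_hu : u ∈ I) (hQ : Q ∈ I ^ 2) (hv : v = c * u + d * Q) :
    I ≤ Ideal.span {u} ⊔ I ^ 2 := by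
  intro f hf
  rw [hI, Ideal.mem_span_pair] at hf
  obtain ⟨a, b, rfl⟩ := hf
  have e : a * u + b * v = (a + b * c) * u + b * d * Q := by rw [hv]; ring
  rw [e]
  exact Submodule.add_mem_sup (Ideal.mem_span_singleton'.mpr ⟨_, rfl⟩) (Ideal.mul_mem_left _ _ hQ)

lemma exists_localParam (h : W.Nonsingular x₀ y₀) :
    ∃ t, LocalParam W (IP W x₀ y₀) (evP W h.1) t := by
  have hT := taylor_two h.1
  have hu_mem : uP W x₀ ∈ IP W x₀ y₀ := uP_mem h.1
  have hv_mem : vP W y₀ ∈ IP W x₀ y₀ := vP_mem h.1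
  have hQ_mem : (vP W y₀ ^ 2 + algebraMap K _ W.a₁ * uP W x₀ * vP W y₀ -
        algebraMap K _ (3 * x₀ + W.a₂) * uP W x₀ ^ 2 - uP W x₀ ^ 3) ∈ IP W x₀ y₀ ^ 2 := by
    have huu : uP W x₀ ^ 2 ∈ IP W x₀ y₀ ^ 2 := Ideal.pow_mem_pow hu_mem 2
    have hvv : vP W y₀ ^ 2 ∈ IP W x₀ y₀ ^ 2 := Ideal.pow_mem_pow hv_mem 2
    have huv : uP W x₀ * vP W y₀ ∈ IP W x₀ y₀ ^ 2 := by
      rw [sq]; exact Ideal.mul_mem_mul hu_mem hv_mem
    have e : (vP W y₀ ^ 2 + algebraMap K _ W.a₁ * uP W x₀ * vP W y₀ -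
        algebraMap K _ (3 * x₀ + W.a₂) * uP W x₀ ^ 2 - uP W x₀ ^ 3) =
        vP W y₀ ^ 2 + algebraMap K _ W.a₁ * (uP W x₀ * vP W y₀) -
          algebraMap K _ (3 * x₀ + W.a₂) * uP W x₀ ^ 2 - uP W x₀ * uP W x₀ ^ 2 := by ring
    rw [e]
    exact Ideal.sub_mem _ (Ideal.sub_mem _ (Ideal.add_mem _ hvv (Ideal.mul_mem_left _ _ huv))
      (Ideal.mul_mem_left _ _ huu)) (Ideal.mul_mem_left _ _ huu)
  have hIP : IP W x₀ y₀ = Ideal.span {uP W x₀, vP W y₀} := rfl
  by_cases hY : W.polynomialY.evalEval x₀ y₀ = 0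
  · -- then cX ≠ 0, t = v
    have hX : W.polynomialX.evalEval x₀ y₀ ≠ 0 := by
      rcases h.2 with h' | h'
      · exact h'
      · exact absurd hY h'
    have hinv : algebraMap K W.CoordinateRing (W.polynomialX.evalEval x₀ y₀)⁻¹ *
        algebraMap K _ (W.polynomialX.evalEval x₀ y₀) = 1 := by
      rw [← map_mul, inv_mul_cancel₀ hX, map_one]
    refine ⟨vP W y₀, ⟨fun f => mem_IP_iff h.1 f, fun a => evP_algebraMap h.1 a, hv_mem, ?_, ?_⟩⟩
    · refine le_span_sup_sq_of_eq
        (c := -(algebraMap K _ (W.polynomialX.evalEval x₀ y₀)⁻¹ *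
          algebraMap K _ (W.polynomialY.evalEval x₀ y₀)))
        (d := -(algebraMap K _ (W.polynomialX.evalEval x₀ y₀)⁻¹)) hIP hv_mem hQ_mem ?_
      linear_combination (algebraMap K W.CoordinateRing (W.polynomialX.evalEval x₀ y₀)⁻¹) * hT
        - uP W x₀ * hinv
    · rw [vP_eq, map_sub, Derivation.map_algebraMap, sub_zero, D_yR, evP_dY]
      exact neg_ne_zero.mpr hX
  · have hinv : algebraMap K W.CoordinateRing (W.polynomialY.evalEval x₀ y₀)⁻¹ *
        algebraMap K _ (W.polynomialY.evalEval x₀ y₀) = 1 := by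
      rw [← map_mul, inv_mul_cancel₀ hY, map_one]
    refine ⟨uP W x₀, ⟨fun f => mem_IP_iff h.1 f, fun a => evP_algebraMap h.1 a, hu_mem, ?_, ?_⟩⟩
    · refine le_span_sup_sq_of_eq'
        (c := -(algebraMap K _ (W.polynomialY.evalEval x₀ y₀)⁻¹ *
          algebraMap K _ (W.polynomialX.evalEval x₀ y₀)))
        (d := -(algebraMap K _ (W.polynomialY.evalEval x₀ y₀)⁻¹)) hIP hu_mem hQ_mem ?_
      linear_combination (algebraMap K W.CoordinateRing (W.polynomialY.evalEval x₀ y₀)⁻¹) * hT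
        - vP W y₀ * hinv
    · rw [uP_eq, map_sub, Derivation.map_algebraMap, sub_zero, D_xR, evP_dX]
      exact hY

end

end Fermat.Agent.S13.TorsW18
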