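/-
S13 package T-W2 (helper18): the derivation `TorsW18.D` coincides with helper81's `Wr81.D`.
-/
import Fermat.Agent.S13.TorsW18.Taylor
import Fermat.Agent.S13.WrDefs81

set_option autoImplicit false

namespace Fermat.Agent.S13.TorsW18

open Polynomial WeierstrassCurve WeierstrassCurve.Affine
open scoped Polynomial.Bivariate

noncomputable section

variable {K : Type*} [Field K] (W : Affine K)

lemma io_eq_aeval (p : K[X]) : Wr81.io W p = Polynomial.aeval (xR W) p := by
  induction p using Polynomial.induction_on' with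
  | add p q hp hq => rw [map_add, map_add, hp, hq]
  | monomial n a =>
    rw [Polynomial.aeval_monomial, Wr81.io_apply, ← C_mul_X_pow_eq_monomial, C_mul, C_pow,
      map_mul, map_pow]
    rfl

lemma D_io (p : K[X]) : D W (Wr81.io W p) = Wr81.io W (derivative p) * dX W := by
  rw [io_eq_aeval, Derivation.map_aeval, io_eq_aeval, smul_eq_mul, D_xR]

lemma Yc_eq : Wr81.Yc W = yR W := rfl

lemma dX_eq : dX W = 2 * Wr81.Yc W + Wr81.io W (Wr81.Lp W) := by
  rw [dX, mk_polynomialY, Yc_eq, Wr81.Lp, io_eq_aeval]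
  simp [Polynomial.aeval_def]

lemma dY_eq : dY W = Wr81.io W (Wr81.gp' W) - Wr81.io W (C W.a₁) * Wr81.Yc W := by
  rw [dY, mk_polynomialX, Yc_eq, Wr81.gp', io_eq_aeval, io_eq_aeval]
  simp [Polynomial.aeval_def]

theorem D_eq : Wr81.D W = D W := by
  ext f
  obtain ⟨p, q, rfl⟩ := Wr81.exists_rep W f
  have e : D W (Wr81.io W p + Wr81.io W q * Wr81.Yc W) =
      Wr81.io W (derivative p) * dX W + (Wr81.io W q * dY W +
        Wr81.Yc W * (Wr81.io W (derivative q) * dX W)) := by
    rw [map_add, Derivation.leibniz, D_io, D_io, smul_eq_mul, smul_eq_mul, Yc_eq, D_yR]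
  rw [Wr81.D_rep, e, dX_eq, dY_eq]
  have h := Wr81.Yc_sq W
  simp only [map_add, map_sub, map_mul, map_ofNat]
  linear_combination (-2 * Wr81.io W (derivative q)) * h

end

end Fermat.Agent.S13.TorsW18
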