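/-
S13 package T-W2 (helper18): torsion points from zeros of the Wronskian.
* `nsmul_eq_zero_iff` : `n • P = 0 ↔ I_P ^ n` principal (class group of the coordinate ring);
* `natDegree_norm_eq` : `natDegree (norm f) = natDegree (sg f)` (pole order at infinity);
* `LocalParam.span_eq_pow` : `f ≠ 0`, `f ∈ I_P^n`, pole order `≤ n` ⟹ `(f) = I_P^n`;
* `exists_of_ev_Wr_eq_zero` : a zero of `Wr n` gives `f ∈ L(nO) ∩ I_P^n`, `f ≠ 0`;
* `nsmul_eq_zero_of_evP_Wr` : `Wr n (P) = 0 ⟹ n • P = 0`;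
* `exists_zero` : an element of non-constant norm has a zero on the curve (alg. closed field);
* `exists_torsion` : for `2 ≤ n`, `Δ ≠ 0`, alg. closed char. 0: an affine point with `n • P = 0`.
Complete proofs.
-/
import Fermat.Agent.S13.TorsW18.Bridge
import Fermat.Agent.S13.WrDet81

set_option autoImplicit false

namespace Fermat.Agent.S13.TorsW18

open Polynomial WeierstrassCurve WeierstrassCurve.Affine
open scoped Polynomial.Bivariate

noncomputable section

variable {K : Type*} [Field K] {W : Affine K}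

lemma finite_quot_span {f : W.CoordinateRing} (hf : f ≠ 0) :
    Module.Finite K (W.CoordinateRing ⧸ Ideal.span {f}) := by
  have hI : Ideal.span {f} ≠ ⊥ := Ideal.span_singleton_eq_bot.not.2 hf
  let b := CoordinateRing.basis W
  let e := Ideal.quotientEquivPiSpan (Ideal.span {f}) b hI
  have : Module.Finite K (∀ i, K[X] ⧸ Ideal.span ({Ideal.smithCoeffs b _ hI i} : Set K[X])) :=
    Module.Finite.pi
  exact Module.Finite.equiv (e.restrictScalars K).symm

lemma finrank_quot_span {f : W.CoordinateRing} (hf : f ≠ 0) :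
    Module.finrank K (W.CoordinateRing ⧸ Ideal.span {f}) = (Algebra.norm K[X] f).natDegree :=
  finrank_quotient_span_eq_natDegree_norm (CoordinateRing.basis W) hf

variable {I : Ideal W.CoordinateRing} {ev : W.CoordinateRing →+* K} {t : W.CoordinateRing}

/-- (a) a function with pole order `≤ n` at infinity vanishing to order `n` at the point generates
`I^n`. -/
lemma LocalParam.span_eq_pow [CharZero K] (H : LocalParam W I ev t) {n : ℕ} {f : W.CoordinateRing}
    (hf : f ≠ 0) (hfI : f ∈ I ^ n) (hdeg : (Algebra.norm K[X] f).natDegree ≤ n) :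
    Ideal.span {f} = I ^ n := by
  have hle : Ideal.span {f} ≤ I ^ n := (Ideal.span_singleton_le_iff_mem _).mpr hfI
  refine le_antisymm hle ?_
  have := finite_quot_span (W := W) hf
  have : Module.Finite K (W.CoordinateRing ⧸ I ^ n) := Module.Finite.equiv (H.quotPowEquiv n).symm
  -- the K-linear surjection R/(f) → R/I^n
  let φ : (W.CoordinateRing ⧸ Ideal.span {f}) →ₗ[K] (W.CoordinateRing ⧸ I ^ n) :=
    (Ideal.Quotient.factorₐ K hle).toLinearMap
  have hφs : Function.Surjective φ := Ideal.Quotient.factor_surjective hle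
  have h1 : Module.finrank K (W.CoordinateRing ⧸ I ^ n) = n := H.finrank_quot_pow n
  have h2 := finrank_quot_span (W := W) hf
  have h3 : Module.finrank K (W.CoordinateRing ⧸ I ^ n) ≤
      Module.finrank K (W.CoordinateRing ⧸ Ideal.span {f}) :=
    LinearMap.finrank_le_finrank_of_surjective hφs  -- needs finite source
  have heq : Module.finrank K (W.CoordinateRing ⧸ Ideal.span {f}) =
      Module.finrank K (W.CoordinateRing ⧸ I ^ n) := by omega
  have hφi : Function.Injective φ :=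
    (LinearMap.injective_iff_surjective_of_finrank_eq_finrank heq).mpr hφs
  intro g hg
  have : φ (Ideal.Quotient.mk _ g) = 0 := by
    change Ideal.Quotient.factor hle (Ideal.Quotient.mk _ g) = 0
    rw [Ideal.Quotient.factor_mk, Ideal.Quotient.eq_zero_iff_mem]
    exact hg
  have := hφi (this.trans (map_zero φ).symm)
  rwa [Ideal.Quotient.eq_zero_iff_mem] at this

section ClassGroup
variable [DecidableEq K]

/-- (b) `n • P = 0` iff `I_P ^ n` is principal. -/
lemma nsmul_eq_zero_iff {x₀ y₀ : K} (h : W.Nonsingular x₀ y₀) (n : ℕ) :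
    (n : ℤ) • (Point.some x₀ y₀ h) = 0 ↔
      ∃ f : W.CoordinateRing, f ≠ 0 ∧ IP W x₀ y₀ ^ n = Ideal.span {f} := by
  have key : Point.toClass ((n : ℤ) • Point.some x₀ y₀ h) = Additive.ofMul
      ((ClassGroup.mk W.FunctionField (CoordinateRing.XYIdeal' (W := W) h)) ^ n) := by
    rw [map_zsmul, natCast_zsmul, ofMul_pow]; rfl
  rw [← Point.toClass_eq_zero, key, ← map_pow]
  refine Iff.trans (Iff.rfl : _ ↔ ClassGroup.mk W.FunctionField
    ((CoordinateRing.XYIdeal' (W := W) h) ^ n) = 1) ?_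
  refine ClassGroup.mk_eq_one_of_coe_ideal ?_
  rw [Units.val_pow_eq_pow_val, CoordinateRing.XYIdeal'_eq, FractionalIdeal.coeIdeal_pow]
  rfl

end ClassGroup

lemma rep_eq_smul (p q : K[X]) : Wr81.io W p + Wr81.io W q * Wr81.Yc W =
    p • (1 : W.CoordinateRing) + q • CoordinateRing.mk W Y := by
  rw [Wr81.smul_eq_io, Wr81.smul_eq_io, mul_one]; rfl

lemma two_nsmul_degree_le_iff (p : K[X]) (m : ℕ) :
    2 • p.degree ≤ (m : WithBot ℕ) ↔ 2 * p.natDegree ≤ m := by
  by_cases hp : p = 0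
  · subst hp; simp
  · rw [degree_eq_natDegree hp]
    have : (2 • (p.natDegree : WithBot ℕ)) = ((2 * p.natDegree : ℕ) : WithBot ℕ) := by
      rw [two_nsmul, two_mul]; push_cast; rfl
    rw [this]
    exact WithBot.coe_le_coe

lemma two_nsmul_degree_add_le_iff (q : K[X]) (m : ℕ) :
    2 • q.degree + 3 ≤ (m : WithBot ℕ) ↔ (q = 0 ∨ 2 * q.natDegree + 3 ≤ m) := by
  by_cases hq : q = 0
  · subst hq; simp
  · rw [degree_eq_natDegree hq]
    have : (2 • (q.natDegree : WithBot ℕ)) + 3 = ((2 * q.natDegree + 3 : ℕ) : WithBot ℕ) := by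
      rw [two_nsmul, two_mul]; push_cast; rfl
    rw [this]
    simp only [hq, false_or]
    exact WithBot.coe_le_coe

lemma natDegree_norm_le_iff (f : W.CoordinateRing) (m : ℕ) :
    (Algebra.norm K[X] f).natDegree ≤ m ↔ (Wr81.sg W f).natDegree ≤ m := by
  obtain ⟨p, q, rfl⟩ := Wr81.exists_rep W f
  rw [Wr81.sg_rep, Wr81.sg_rep_le_iff, rep_eq_smul, natDegree_le_iff_degree_le,
    CoordinateRing.degree_norm_smul_basis, max_le_iff, two_nsmul_degree_le_iff,
    two_nsmul_degree_add_le_iff]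

lemma natDegree_norm_eq (f : W.CoordinateRing) :
    (Algebra.norm K[X] f).natDegree = (Wr81.sg W f).natDegree :=
  le_antisymm ((natDegree_norm_le_iff f _).mpr le_rfl) ((natDegree_norm_le_iff f _).mp le_rfl)


/-- the element of `L(nO)` with coordinate vector `v`. -/
def lcomb (W : Affine K) (n : ℕ) (v : Fin n → K) : W.CoordinateRing :=
  ∑ j : Fin n, v j • Wr81.bm W (Wr81.mseq (j : ℕ))

lemma sg_lcomb (n : ℕ) (v : Fin n → K) :
    Wr81.sg W (lcomb W n v) = ∑ j : Fin n, C (v j) * X ^ (Wr81.mseq (j : ℕ)) := by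
  rw [← Wr81.sgl_apply, lcomb, map_sum]
  refine Finset.sum_congr rfl fun j _ => ?_
  rw [map_smul, Wr81.sgl_apply, Wr81.sg_bm W (Wr81.mseq_ne_one _), Polynomial.smul_eq_C_mul]

lemma coeff_sg_lcomb (n : ℕ) (v : Fin n → K) (j : Fin n) :
    (Wr81.sg W (lcomb W n v)).coeff (Wr81.mseq (j : ℕ)) = v j := by
  rw [sg_lcomb, finsetSum_coeff, Finset.sum_eq_single j]
  · simp
  · intro i _ hij
    rw [coeff_C_mul, coeff_X_pow, if_neg, mul_zero]
    intro h
    exact hij (Fin.ext (Wr81.mseq_injective h)).symm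
  · intro h; exact absurd (Finset.mem_univ j) h

lemma lcomb_ne_zero {n : ℕ} {v : Fin n → K} (hv : v ≠ 0) : lcomb W n v ≠ 0 := by
  intro h0
  apply hv
  funext j
  rw [← coeff_sg_lcomb (W := W) n v j, h0, Wr81.sg_zero, coeff_zero, Pi.zero_apply]

lemma natDegree_sg_lcomb_le (n : ℕ) (v : Fin n → K) :
    (Wr81.sg W (lcomb W n v)).natDegree ≤ n := by
  rw [sg_lcomb]
  refine natDegree_sum_le_of_forall_le _ _ fun j _ => ?_
  refine (natDegree_C_mul_X_pow_le _ _).trans (Wr81.mseq_le j.2)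

lemma taylor_lcomb (H : LocalParam W I ev t) (n : ℕ) (v : Fin n → K) :
    H.taylor n (lcomb W n v) = ((Wr81.WrM W n).map ev).mulVec v := by
  rw [lcomb, map_sum]
  funext i
  rw [Finset.sum_apply, Matrix.mulVec, dotProduct]
  refine Finset.sum_congr rfl fun j _ => ?_
  rw [map_smul, Pi.smul_apply, LocalParam.taylor_apply, smul_eq_mul, Matrix.map_apply, Wr81.WrM,
    Matrix.of_apply, D_eq, mul_comm]

/-- (c, easy direction) a zero of the Wronskian gives a function in `L(nO)` vanishing to order `n`. -/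
lemma exists_of_ev_Wr_eq_zero [CharZero K] (H : LocalParam W I ev t) {n : ℕ}
    (h0 : ev (Wr81.Wr W n) = 0) :
    ∃ f : W.CoordinateRing, f ≠ 0 ∧ f ∈ I ^ n ∧ (Wr81.sg W f).natDegree ≤ n := by
  have hdet : ((Wr81.WrM W n).map ev).det = 0 := by
    have := RingHom.map_det ev (Wr81.WrM W n)
    rw [RingHom.mapMatrix_apply] at this
    rw [← this]; exact h0
  obtain ⟨v, hv, hMv⟩ := Matrix.exists_mulVec_eq_zero_iff.mpr hdet
  refine ⟨lcomb W n v, lcomb_ne_zero hv, ?_, natDegree_sg_lcomb_le n v⟩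
  have : lcomb W n v ∈ LinearMap.ker (H.taylor n) := by
    rw [LinearMap.mem_ker, taylor_lcomb, hMv]
  rw [H.ker_taylor] at this
  exact this




lemma evP_io {x₀ y₀ : K} (h : W.Equation x₀ y₀) (p : K[X]) :
    evP W h (Wr81.io W p) = p.eval x₀ := by
  rw [Wr81.io_apply, evP_mk, evalEval_C]

lemma evP_Yc {x₀ y₀ : K} (h : W.Equation x₀ y₀) : evP W h (Wr81.Yc W) = y₀ := evP_yR h

lemma evP_rep {x₀ y₀ : K} (h : W.Equation x₀ y₀) (p q : K[X]) :
    evP W h (Wr81.io W p + Wr81.io W q * Wr81.Yc W) = p.eval x₀ + q.eval x₀ * y₀ := by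
  rw [map_add, map_mul, evP_io, evP_io, evP_Yc]

lemma norm_rep (p q : K[X]) : Algebra.norm K[X] (Wr81.io W p + Wr81.io W q * Wr81.Yc W) =
    p ^ 2 - p * q * (C W.a₁ * X + C W.a₃) -
      q ^ 2 * (X ^ 3 + C W.a₂ * X ^ 2 + C W.a₄ * X + C W.a₆) := by
  rw [rep_eq_smul, CoordinateRing.norm_smul_basis]

/-- the value of the norm at `x₀` is the product of the values at the two points above `x₀`. -/
lemma eval_norm_eq {x₀ y₀ : K} (h : W.Equation x₀ y₀) (f : W.CoordinateRing) :
    (Algebra.norm K[X] f).eval x₀ =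
      evP W h f * evP W ((W.equation_neg x₀ y₀).mpr h) f := by
  obtain ⟨p, q, rfl⟩ := Wr81.exists_rep W f
  rw [norm_rep, evP_rep, evP_rep, negY]
  have := (W.equation_iff x₀ y₀).mp h
  simp only [eval_sub, eval_mul, eval_pow, eval_add, eval_C, eval_X]
  linear_combination (q.eval x₀) ^ 2 * this

/-- existence of a zero on the curve (algebraically closed base field). -/
lemma exists_zero [IsAlgClosed K] (f : W.CoordinateRing)
    (hf : (Algebra.norm K[X] f).natDegree ≠ 0) :
    ∃ (x₀ y₀ : K) (h : W.Equation x₀ y₀), evP W h f = 0 := by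
  have hdeg : (Algebra.norm K[X] f).degree ≠ 0 := by
    intro h0
    exact hf (natDegree_eq_of_degree_eq_some h0)
  obtain ⟨x₀, hx₀⟩ := IsAlgClosed.exists_root _ hdeg
  -- a point above x₀
  let P : K[X] := X ^ 2 + C (W.a₁ * x₀ + W.a₃) * X - C (x₀ ^ 3 + W.a₂ * x₀ ^ 2 + W.a₄ * x₀ + W.a₆)
  have hP : P.degree ≠ 0 := by
    have : P.degree = 2 := by
      simp only [P]
      compute_degree!
    rw [this]; norm_num
  obtain ⟨y₀, hy₀⟩ := IsAlgClosed.exists_root P hP
  have h : W.Equation x₀ y₀ := by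
    rw [W.equation_iff]
    simp only [P, IsRoot.def, eval_sub, eval_add, eval_mul, eval_pow, eval_C, eval_X] at hy₀
    linear_combination hy₀
  have := eval_norm_eq h f
  rw [IsRoot.def] at hx₀
  rw [hx₀] at this
  rcases mul_eq_zero.mp this.symm with h1 | h1
  · exact ⟨x₀, y₀, h, h1⟩
  · exact ⟨x₀, _, _, h1⟩

/-- (c, easy direction) a zero of the Wronskian `Wr n` is an `n`-torsion point. -/
theorem nsmul_eq_zero_of_evP_Wr [DecidableEq K] [CharZero K] {x₀ y₀ : K}
    (h : W.Nonsingular x₀ y₀) {n : ℕ} (h0 : evP W h.1 (Wr81.Wr W n) = 0) :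
    (n : ℤ) • Point.some x₀ y₀ h = 0 := by
  obtain ⟨t, H⟩ := exists_localParam h
  obtain ⟨f, hf, hfI, hdeg⟩ := exists_of_ev_Wr_eq_zero H h0
  rw [nsmul_eq_zero_iff]
  refine ⟨f, hf, (H.span_eq_pow hf hfI ?_).symm⟩
  rw [natDegree_norm_eq]; exact hdeg

/-- existence of a nonzero `n`-torsion point, `n ≥ 2`. -/
theorem exists_torsion [DecidableEq K] [IsAlgClosed K] [CharZero K] (hΔ : W.Δ ≠ 0) {n : ℕ}
    (hn : 2 ≤ n) :
    ∃ (x₀ y₀ : K) (h : W.Nonsingular x₀ y₀), (n : ℤ) • Point.some x₀ y₀ h = 0 := by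
  have hdeg : (Algebra.norm K[X] (Wr81.Wr W n)).natDegree ≠ 0 := by
    rw [natDegree_norm_eq, Wr81.natDegree_sg_Wr W (by omega : 1 ≤ n)]
    have : 2 * 2 ≤ n * n := Nat.mul_le_mul hn hn
    have h2 : n ^ 2 = n * n := sq n
    omega
  obtain ⟨x₀, y₀, h, h0⟩ := exists_zero (W := W) _ hdeg
  have hns : W.Nonsingular x₀ y₀ := (W.equation_iff_nonsingular_of_Δ_ne_zero hΔ).mp h
  exact ⟨x₀, y₀, hns, nsmul_eq_zero_of_evP_Wr hns h0⟩

end

end Fermat.Agent.S13.TorsW18
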