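/-
S13 package T-W2 (helper18): `theorem tNontriv : Asm.TNontrivStmt` — a nonzero `p`-torsion point
exists (Wronskian route: a zero of the Wronskian of `L(pO)` is a `p`-torsion point).  Complete proofs.
-/
import Fermat.Agent.S13.Assembly
import Fermat.Agent.S13.TorsW18.Torsion

set_option autoImplicit false

namespace Fermat.Agent.S13.TorsW18

open WeierstrassCurve WeierstrassCurve.Affine

/-- general form: over an algebraically closed field of characteristic zero, `E[n] ≠ 0`, `n ≥ 2`. -/
theorem nontrivial_torsionBy {K : Type*} [Field K] [DecidableEq K] [IsAlgClosed K] [CharZero K]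
    (W : Affine K) (hΔ : W.Δ ≠ 0) {n : ℕ} (hn : 2 ≤ n) :
    Nontrivial (Submodule.torsionBy ℤ W.Point n) := by
  obtain ⟨x₀, y₀, h, hP⟩ := exists_torsion (W := W) hΔ hn
  refine ⟨⟨⟨Point.some x₀ y₀ h, ?_⟩, 0, ?_⟩⟩
  · rw [Submodule.mem_torsionBy_iff]; exact hP
  · intro h0
    have := congrArg Subtype.val h0
    exact Point.some_ne_zero h this

/-- [T-ex] in the exact shape of `Assembly.lean`. -/
theorem tNontriv : Asm.TNontrivStmt := fun W hΔ _ hp _ =>
  nontrivial_torsionBy W hΔ hp.two_le

end Fermat.Agent.S13.TorsW18
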